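import Fermat.Agent.LT.T3.H830.ArchWire
import Fermat.Agent.LT.T6.H830.ArchConvMatch

/-!
# Row LT, quadratic step over `ℚ`, archimedean place (helper830, deputy F/Q "archimedean
# wiring"): THE ARCHIMEDEAN CLAUSE OF THE CALCULUS OF PURE TENSORS (`ProdMtQ`)

OFF-MAIN.  Complete proofs, nothing assumed.  ADDITIVE.

The local shape at infinity of the construction over `ℚ` (helper801 `CQ801.ArchOkQ801 c`,
helper885 `ArchOkQ885`): test functions `Φ` (bi-`U(2)`-invariant, on `GL₂(ℂ)`), `F0` (weight `0`),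
`F1` (weight `n = ±1`) with `N`-integrals

    AS.HasAbelN Φ β',   R.HasAbelNR F0 (c β'(·/2)),   R.HasAbelNR F1 (c β'(·/2)).

    archPair_of_abelN830 : (the shape with constant `c`) → T6.H830.IsArchPair830 c n Φ F0 F1
    archProdN830 : ∀ μr μc Haar, ∃ cM > 0, ∃ lam > 0,
      (the shape with constant `cM` is MATCHED: `T6.IsArchMatch μr μc Φ (F0 + F1)`) ∧
      ∀ c c' s t, s ≠ 0 → t · lam · c · c' = cM · s → ∀ n = ±1,
        (shape `c` for `Φ₁, F0₁, F1₁`) → (shape `c'` for `Φ₂, F0₂, F1₂`) →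
        the PRODUCTS `s · Φ₁ ⋆ Φ₂`, `t · F0₁ ⋆ F0₂`, `t · F1₁ ⋆ F1₂` are test functions
        (`IsArchTestC`, `IsArchTestR 0`, `IsArchTestR n`) and
        `T6.IsArchMatch μr μc (s · Φ₁ ⋆ Φ₂) (t · F0₁ ⋆ F0₂ + t · F1₁ ⋆ F1₂)`

= the clauses `arch_up`, `arch_down0`, `arch_down1`, `arch` of `LocHypQ298` / `LocHypQb801` for
the members of the families.  (`halfQ801 c β'` and `half830 c β'` are the same term
`fun p => c * β' ((2 : ℝ)⁻¹ • p)`; the statements below are typed with this term.)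
-/

set_option autoImplicit false

open scoped Matrix ContDiff
open MeasureTheory

noncomputable section

namespace Fermat.Agent.LT.T3.H830

open Fermat.Agent.LT.T3.AS Fermat.Agent.LT.T6 Fermat.Agent.LT.T6.H626
open Fermat.Agent.LT.T6.H830

/-- The local shape at infinity (`N`-integral form) is the Abel relation. -/
theorem archPair_of_abelN830 {c : ℂ} {n : ℤ} {Φ : GL (Fin 2) ℂ → ℂ} {F0 F1 : GL (Fin 2) ℝ → ℂ}
    {β' : ℝ × ℝ → ℂ} (hΦ : IsArchTestC Φ) (hF0 : IsArchTestR 0 F0) (hF1 : IsArchTestR n F1)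
    (hN : HasAbelN Φ β') (h0 : R.HasAbelNR F0 (fun p => c * β' ((2 : ℝ)⁻¹ • p)))
    (h1 : R.HasAbelNR F1 (fun p => c * β' ((2 : ℝ)⁻¹ • p))) :
    IsArchPair830 c n Φ F0 F1 :=
  ⟨hΦ, hF0, hF1, (isAbelRel_iff830 hN c F0 F1).2 ⟨h0, h1⟩⟩

/-- **THE ARCHIMEDEAN CLAUSE OF `ProdMtQ`** (see the header). -/
theorem archProdN830 (μr : @Measure (GL (Fin 2) ℝ) (borel _))
    (μc : @Measure (GL (Fin 2) ℂ) (borel _))
    (hμr : @Measure.IsHaarMeasure _ _ _ (borel _) μr)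
    (hμc : @Measure.IsHaarMeasure _ _ _ (borel _) μc) :
    ∃ cM : ℝ, 0 < cM ∧ ∃ lam : ℝ, 0 < lam ∧
      (∀ n : ℤ, n = 1 ∨ n = -1 →
        ∀ (Φ : GL (Fin 2) ℂ → ℂ) (F0 F1 : GL (Fin 2) ℝ → ℂ) (β' : ℝ × ℝ → ℂ),
        IsArchTestC Φ → IsArchTestR 0 F0 → IsArchTestR n F1 → HasAbelN Φ β' →
        R.HasAbelNR F0 (fun p => (cM : ℂ) * β' ((2 : ℝ)⁻¹ • p)) →
        R.HasAbelNR F1 (fun p => (cM : ℂ) * β' ((2 : ℝ)⁻¹ • p)) →
        IsArchMatch μr μc Φ (fun g => F0 g + F1 g)) ∧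
      ∀ (c c' s t : ℂ), s ≠ 0 → t * (lam : ℂ) * c * c' = (cM : ℂ) * s →
      ∀ n : ℤ, n = 1 ∨ n = -1 →
      ∀ (Φ₁ Φ₂ : GL (Fin 2) ℂ → ℂ) (F₁ F₂ G₁ G₂ : GL (Fin 2) ℝ → ℂ) (β₁ β₂ : ℝ × ℝ → ℂ),
        IsArchTestC Φ₁ → IsArchTestR 0 F₁ → IsArchTestR n G₁ → HasAbelN Φ₁ β₁ →
        R.HasAbelNR F₁ (fun p => c * β₁ ((2 : ℝ)⁻¹ • p)) →
        R.HasAbelNR G₁ (fun p => c * β₁ ((2 : ℝ)⁻¹ • p)) →
        IsArchTestC Φ₂ → IsArchTestR 0 F₂ → IsArchTestR n G₂ → HasAbelN Φ₂ β₂ →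
        R.HasAbelNR F₂ (fun p => c' * β₂ ((2 : ℝ)⁻¹ • p)) →
        R.HasAbelNR G₂ (fun p => c' * β₂ ((2 : ℝ)⁻¹ • p)) →
        IsArchTestC (fun g => s * @convInt _ _ (borel _) μc Φ₁ Φ₂ g) ∧
        IsArchTestR 0 (fun g => t * @convInt _ _ (borel _) μr F₁ F₂ g) ∧
        IsArchTestR n (fun g => t * @convInt _ _ (borel _) μr G₁ G₂ g) ∧
        IsArchMatch μr μc (fun g => s * @convInt _ _ (borel _) μc Φ₁ Φ₂ g)
          (fun g => t * @convInt _ _ (borel _) μr F₁ F₂ g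
            + t * @convInt _ _ (borel _) μr G₁ G₂ g) := by
  obtain ⟨cM, hcM, lam, hlam, hM, hP⟩ := archProd830 μr μc hμr hμc
  refine ⟨cM, hcM, lam, hlam, ?_, ?_⟩
  · intro n hn Φ F0 F1 β' hΦ hF0 hF1 hN h0 h1
    exact hM n hn Φ F0 F1 (archPair_of_abelN830 hΦ hF0 hF1 hN h0 h1)
  · intro c c' s t hs hrel n hn Φ₁ Φ₂ F₁ F₂ G₁ G₂ β₁ β₂ a1 a2 a3 a4 a5 a6 b1 b2 b3 b4 b5 b6
    obtain ⟨p, hm⟩ := hP c c' s t hs hrel n hn Φ₁ Φ₂ F₁ F₂ G₁ G₂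
      (archPair_of_abelN830 a1 a2 a3 a4 a5 a6) (archPair_of_abelN830 b1 b2 b3 b4 b5 b6)
    exact ⟨p.up, p.down0, p.down1, hm⟩

end Fermat.Agent.LT.T3.H830

end
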