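import Fermat.Agent.LT.T3.R.Spec
import Fermat.Agent.LT.T6.H626.ArchMatchClosed626

/-!
# Row LT, quadratic step `F/ℚ`: THE ARCHIMEDEAN WIRING between T3 and T6 (helper830, deputy F/Q)

OFF-MAIN.  PROVED, UNCONDITIONAL, no hole, nothing assumed.  ADDITIVE (new names, suffix `830`).
Vocabulary: `LT/T3/R/Spec.lean` (helper14, station T3.18R: `R.HasAbelNR`), `LT/T3/H736/ASSpec.lean`
(`AS.HasAbelN`), `LT/T6/SpecArch.lean` (helper22), `LT/T6/H626/ArchCut.lean` (helper626: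
`IsAbelRel626`, `GeoMatchC626`, `SpecRelC626`), byte-identical copies; closed inputs
`H626.geoMatchC626_closed`, `H830.specRelC626_830`, `H626.abelExistC626_closed`.

## What it says

T3 builds test functions from their `N`-INTEGRALS (Abel--Satake): at a complex place
`∫_ℂ φ [[c₁, w], [0, c₂]] dw = |c₁| |c₂| β'(log |c₁|, log |c₂|)` (`AS.HasAbelN φ β'`), at a real
place `∫_ℝ f [[c₁, x], [0, c₂]] dx = √(c₁ c₂) β(log c₁, log c₂)` (`R.HasAbelNR f β`).  T6 matches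
test functions through the ABEL RELATION `IsAbelRel626 c φ f₀ f₁`.  The bridge:

    isAbelRel_iff830 : HasAbelN φ β' →
        (IsAbelRel626 c φ f₀ f₁ ↔ HasAbelNR f₀ (c · β'(·/2)) ∧ HasAbelNR f₁ (c · β'(·/2)))

(`half830 c β' (x₁, x₂) = c β'(x₁/2, x₂/2)`), and therefore, for ALL Haar measures `μ`, `μ'`:

    archWire830 : ∃ c > 0, ∀ n = ±1, ∃ c₀ c₁ ≠ 0, ∀ φ f₀ f₁ β',
        IsArchTestC φ → IsArchTestR 0 f₀ → IsArchTestR n f₁ → HasAbelN φ β' →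
        HasAbelNR f₀ (half830 c β') → HasAbelNR f₁ (half830 c β') →
          IsArchMatch μ μ' φ (f₀ + f₁) ∧ (∀ s, sphTransR μ 0 f₀ s = c₀ sphTransC μ' φ (2 s))
            ∧ (∀ s, sphTransR μ n f₁ s = c₁ sphTransC μ' φ (2 s))

So the archimedean factors of the Eisenstein-killing pure tensors downstairs (station T3.18R,
`R.IsPurePairR`: ANY test functions of weight `0`, `±1` with the `N`-integral `half830 c β'`) are
MATCHED with the archimedean factor upstairs (station T3.18M, `N`-integral `β'`), with the base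
change `s ↦ 2 s` of the eigenvalues: the clause at infinity of the relation `Mt` of
`GlobQC732` / `ConstrQ60C732` (helper732) and the clause `op_down` of `L2Q.IsL2QData`.
`half_symBump830`: `half830 c β'` is a symmetric bump if `β'` is.
-/

set_option autoImplicit false

open MeasureTheory
open scoped ContDiff

noncomputable section

namespace Fermat.Agent.LT.T3.H830

open Fermat.Agent.LT.T3.AS Fermat.Agent.LT.T6 Fermat.Agent.LT.T6.H626

/-- `(x₁, x₂) ↦ c β'(x₁/2, x₂/2)`. -/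
def half830 (c : ℂ) (β' : ℝ × ℝ → ℂ) : ℝ × ℝ → ℂ := fun p => c * β' ((2 : ℝ)⁻¹ • p)

theorem half_apply830 (c : ℂ) (β' : ℝ × ℝ → ℂ) (x y : ℝ) :
    half830 c β' (x, y) = c * β' (x / 2, y / 2) := by
  simp [half830, Prod.smul_mk, div_eq_inv_mul]

theorem half_symBump830 (c : ℂ) {β' : ℝ × ℝ → ℂ} (hβ : IsSymBump β') :
    IsSymBump (half830 c β') := by
  refine ⟨?_, ?_, ?_⟩
  · exact contDiff_const.mul (hβ.1.comp (contDiff_const_smul ((2 : ℝ)⁻¹)))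
  · exact (hβ.2.1.comp_smul (inv_ne_zero two_ne_zero)).mul_left
  · intro x y
    rw [half_apply830, half_apply830, hβ.2.2]

/-- The unit `√a` of `ℂ`. -/
def sqU830 (a : ℝ) (ha : 0 < a) : ℂˣ :=
  Units.mk0 ((Real.sqrt a : ℝ) : ℂ) (by exact_mod_cast (Real.sqrt_pos.2 ha).ne')

theorem norm_sqU830 (a : ℝ) (ha : 0 < a) : ‖((sqU830 a ha : ℂˣ) : ℂ)‖ = Real.sqrt a := by
  simp [sqU830, abs_of_nonneg (Real.sqrt_nonneg a)]

/-- The complex side of the Abel relation, from the `N`-integral. -/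
theorem cplxSide830 {φ : GL (Fin 2) ℂ → ℂ} {β' : ℝ × ℝ → ℂ} (hN : HasAbelN φ β')
    (a b : ℝ) (ha : 0 < a) (hb : 0 < b) (u' : ℂ → GL (Fin 2) ℂ)
    (hu' : ∀ w : ℂ, ((u' w : GL (Fin 2) ℂ) : Matrix (Fin 2) (Fin 2) ℂ)
      = !![((Real.sqrt a : ℝ) : ℂ), ((Real.sqrt a : ℝ) : ℂ) * w; 0, ((Real.sqrt b : ℝ) : ℂ)]) :
    (∫ w : ℂ, φ (u' w))
      = ((a⁻¹ * (Real.sqrt a * Real.sqrt b) : ℝ) : ℂ) * β' (Real.log a / 2, Real.log b / 2) := by
  have e : ∀ w : ℂ, u' w = upperGL (sqU830 a ha) (sqU830 b hb) (((Real.sqrt a : ℝ) : ℂ) * w) := by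
    intro w
    apply Units.ext
    rw [hu' w]
    rfl
  simp_rw [e]
  have hC : (∫ w : ℂ, φ (upperGL (sqU830 a ha) (sqU830 b hb) (((Real.sqrt a : ℝ) : ℂ) * w)))
      = |(Real.sqrt a ^ Module.finrank ℝ ℂ)⁻¹| •
        ∫ w : ℂ, φ (upperGL (sqU830 a ha) (sqU830 b hb) w) := by
    have := MeasureTheory.Measure.integral_comp_smul (volume : Measure ℂ)
      (fun w => φ (upperGL (sqU830 a ha) (sqU830 b hb) w)) (Real.sqrt a)
    simpa only [Complex.real_smul] using this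
  rw [hC, hN, norm_sqU830, norm_sqU830, Complex.finrank_real_complex, Real.sq_sqrt ha.le,
    abs_of_pos (inv_pos.2 ha), Real.log_sqrt ha.le, Real.log_sqrt hb.le, Complex.real_smul,
    ← mul_assoc, ← Complex.ofReal_mul]

/-- The real side of the Abel relation, from the `N`-integral. -/
theorem realSide830 {f : GL (Fin 2) ℝ → ℂ} (a b : ℝ) (ha : 0 < a) (hb : 0 < b)
    (u : ℝ → GL (Fin 2) ℝ)
    (hu : ∀ x : ℝ, ((u x : GL (Fin 2) ℝ) : Matrix (Fin 2) (Fin 2) ℝ) = !![a, a * x; 0, b]) :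
    (∫ x : ℝ, f (u x))
      = ((a⁻¹ : ℝ) : ℂ) * ∫ x : ℝ, f (upperGL (Units.mk0 a ha.ne') (Units.mk0 b hb.ne') x) := by
  have e : ∀ x : ℝ, u x = upperGL (Units.mk0 a ha.ne') (Units.mk0 b hb.ne') (a * x) := by
    intro x
    apply Units.ext
    rw [hu x]
    rfl
  simp_rw [e]
  have hR := MeasureTheory.Measure.integral_comp_mul_left
    (fun x => f (upperGL (Units.mk0 a ha.ne') (Units.mk0 b hb.ne') x)) a
  rw [hR, abs_of_pos (inv_pos.2 ha), Complex.real_smul]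

/-- **THE BRIDGE, one function**: the Abel relation of one real test function with `φ` is the
`N`-integral `half830 c β'`. -/
theorem rel_iff_abelNR830 {φ : GL (Fin 2) ℂ → ℂ} {β' : ℝ × ℝ → ℂ} (hN : HasAbelN φ β') (c : ℂ)
    (f : GL (Fin 2) ℝ → ℂ) :
    (∀ a b : ℝ, 0 < a → 0 < b →
      ∀ (u : ℝ → GL (Fin 2) ℝ) (u' : ℂ → GL (Fin 2) ℂ),
        (∀ x : ℝ, ((u x : GL (Fin 2) ℝ) : Matrix (Fin 2) (Fin 2) ℝ) = !![a, a * x; 0, b]) →
        (∀ w : ℂ, ((u' w : GL (Fin 2) ℂ) : Matrix (Fin 2) (Fin 2) ℂ)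
          = !![((Real.sqrt a : ℝ) : ℂ), ((Real.sqrt a : ℝ) : ℂ) * w; 0,
              ((Real.sqrt b : ℝ) : ℂ)]) →
        (∫ x : ℝ, f (u x)) = c * ∫ w : ℂ, φ (u' w))
      ↔ R.HasAbelNR f (half830 c β') := by
  constructor
  · intro h c₁ c₂ h1 h2
    have hrel := h (c₁ : ℝ) (c₂ : ℝ) h1 h2 (fun x => upperGL c₁ c₂ ((c₁ : ℝ) * x))
      (fun w => upperGL (sqU830 _ h1) (sqU830 _ h2) (((Real.sqrt (c₁ : ℝ) : ℝ) : ℂ) * w))
      (fun x => rfl) (fun w => rfl)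
    rw [realSide830 (c₁ : ℝ) (c₂ : ℝ) h1 h2 _ (fun x => rfl),
      cplxSide830 hN (c₁ : ℝ) (c₂ : ℝ) h1 h2 _ (fun w => rfl)] at hrel
    have e1 : Units.mk0 (c₁ : ℝ) h1.ne' = c₁ := Units.ext rfl
    have e2 : Units.mk0 (c₂ : ℝ) h2.ne' = c₂ := Units.ext rfl
    rw [e1, e2] at hrel
    have h3 : (∫ x : ℝ, f (upperGL c₁ c₂ x))
        = ((c₁ : ℝ) : ℂ) * (((c₁ : ℝ)⁻¹ : ℝ) : ℂ) * ∫ x : ℝ, f (upperGL c₁ c₂ x) := by
      rw [← Complex.ofReal_mul, mul_inv_cancel₀ h1.ne', Complex.ofReal_one, one_mul]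
    rw [h3, mul_assoc, hrel, half_apply830, Real.sqrt_mul h1.le]
    push_cast
    field_simp
  · intro h a b ha hb u u' hu hu'
    rw [realSide830 a b ha hb u hu, cplxSide830 hN a b ha hb u' hu',
      h (Units.mk0 a ha.ne') (Units.mk0 b hb.ne') ha hb, half_apply830]
    simp only [Units.val_mk0]
    rw [Real.sqrt_mul ha.le]
    push_cast
    ring

/-- **THE BRIDGE**: for `φ` with `N`-integral `β'`, the Abel relation with constant `c` is the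
pair of `N`-integrals `half830 c β'`. -/
theorem isAbelRel_iff830 {φ : GL (Fin 2) ℂ → ℂ} {β' : ℝ × ℝ → ℂ} (hN : HasAbelN φ β') (c : ℂ)
    (f₀ f₁ : GL (Fin 2) ℝ → ℂ) :
    IsAbelRel626 c φ f₀ f₁
      ↔ R.HasAbelNR f₀ (half830 c β') ∧ R.HasAbelNR f₁ (half830 c β') := by
  rw [← rel_iff_abelNR830 hN c f₀, ← rel_iff_abelNR830 hN c f₁]
  constructor
  · intro h
    exact ⟨fun a b ha hb u u' hu hu' => (h a b ha hb u u' hu hu').1,
      fun a b ha hb u u' hu hu' => (h a b ha hb u u' hu hu').2⟩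
  · intro h a b ha hb u u' hu hu'
    exact ⟨h.1 a b ha hb u u' hu hu', h.2 a b ha hb u u' hu hu'⟩

/-- **THE ARCHIMEDEAN WIRING.**  See the header. -/
theorem archWire830 (μ : @Measure (GL (Fin 2) ℝ) (borel _))
    (μ' : @Measure (GL (Fin 2) ℂ) (borel _))
    (hμ : @Measure.IsHaarMeasure _ _ _ (borel _) μ)
    (hμ' : @Measure.IsHaarMeasure _ _ _ (borel _) μ') :
    ∃ c : ℝ, 0 < c ∧ ∀ n : ℤ, n = 1 ∨ n = -1 →
      ∃ c₀ c₁ : ℂ, c₀ ≠ 0 ∧ c₁ ≠ 0 ∧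
        ∀ (φ : GL (Fin 2) ℂ → ℂ) (f₀ f₁ : GL (Fin 2) ℝ → ℂ) (β' : ℝ × ℝ → ℂ),
          IsArchTestC φ → IsArchTestR 0 f₀ → IsArchTestR n f₁ → HasAbelN φ β' →
          R.HasAbelNR f₀ (half830 (c : ℂ) β') → R.HasAbelNR f₁ (half830 (c : ℂ) β') →
            IsArchMatch μ μ' φ (fun g => f₀ g + f₁ g) ∧
            (∀ s : ℂ, sphTransR μ 0 f₀ s = c₀ * sphTransC μ' φ (2 * s)) ∧
            (∀ s : ℂ, sphTransR μ n f₁ s = c₁ * sphTransC μ' φ (2 * s)) := by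
  obtain ⟨c, hc, hmatch⟩ := geoMatchC626_closed μ μ' hμ hμ'
  refine ⟨c, hc, fun n hn => ?_⟩
  obtain ⟨c₀, c₁, h0, h1, hspec⟩ := Fermat.Agent.LT.T6.H830.specRelC626_830 μ μ' hμ hμ' (c : ℂ)
    (by exact_mod_cast hc.ne') n hn
  refine ⟨c₀, c₁, h0, h1, fun φ f₀ f₁ β' hφ hf₀ hf₁ hN hN0 hN1 => ?_⟩
  have hrel : IsAbelRel626 (c : ℂ) φ f₀ f₁ := (isAbelRel_iff830 hN (c : ℂ) f₀ f₁).2 ⟨hN0, hN1⟩
  refine ⟨?_, hspec φ f₀ f₁ hφ hf₀ hf₁ hrel⟩
  rw [isArchMatch_iff_on626]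
  exact hmatch n hn φ f₀ f₁ hφ hf₀ hf₁ hrel

end Fermat.Agent.LT.T3.H830

end
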