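import Fermat.Agent.LT.T3.R.H96.MeanActsR
import Fermat.Agent.LT.T3.M.H96.MeanActs
import Fermat.Agent.LT.T3.H830.ArchWire

/-!
# Row LT, quadratic step `F/ℚ`: THE SCALARS of the test functions on the eigenfunctions
# ARE THE SPHERICAL TRANSFORMS; base change `s ↦ 2 s` of the scalars (helper830, deputy F/Q)

OFF-MAIN.  PROVED, UNCONDITIONAL, no hole, nothing assumed.  ADDITIVE (new names, suffix `830`).
Vocabulary: `LT/T3/R/Spec.lean` (`R.ActsOnR`, `R.locClassR`), `LT/T3/M/GenSpec.lean`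
(`M.ActsByMean`, `M.IsLocMean`), `LT/T6/SpecArch.lean` (`sphRad`, `sphC`, `sphTransR`,
`sphTransC`); inputs: `R.H96.actsOnR96`, `M.H96.actsByMean96` (helper96: the scalars as
integrals), `archWire830`.  Byte-identical copies.

* `actsOnR_sph830` (real place): a test function `F` of weight `n` acts on the joint
  eigenfunctions of the circle means with eigenvalue function `t ↦ sphRad n s (cosh t)`
  (class `R.locClassR n _`) by the scalar `sphTransR μ n F s`.
* `actsByMean_sph830` (complex place): a bi-`U(2)`-invariant `φ` acts on the eigenfunctions of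
  the sphere means with eigenvalue function `d ↦ 4π sphC ν (cosh d)` by `sphTransC μ' φ ν`.
* `scalarBC830` (BASE CHANGE OF THE SCALARS): with the constants `c`, `c₀`, `c₁` of
  `archWire830`: if `φ` has the `N`-integral `β'` and `f₀`, `f₁` have the `N`-integral
  `half830 c β'`, then for every `s` the scalars of `f₀`, `f₁` on the classes of parameter `s`
  (weights `0`, `n`) are `c₀`, `c₁` times the scalar of `φ` on the class of parameter `2 s`.
  These are the eigenvalue functions of `L2Q.IsBCDataQ` (`c.m = 2π sphRad n s ∘ cosh`,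
  `Ĉ.m = 4π sphC (2 s) ∘ cosh`): the clause `op_down` of `L2Q.IsL2QData` at the real place.
-/

set_option autoImplicit false
set_option linter.style.haveILetI false

open MeasureTheory
open Fermat.Agent.LT.T6 Fermat.Agent.LT.T6.H830 Fermat.Agent.LT.T6.H131
open Fermat.Agent.LT.T6.H162 Fermat.Agent.LT.T6.H543

noncomputable section

namespace Fermat.Agent.LT.T3.H830

open Fermat.Agent.LT.T3.AS Fermat.Agent.LT.T3.R Fermat.Agent.LT.T3.M

/-! ## Values at the origin -/

theorem sphR0_one830 (s : ℂ) : sphR0 s 1 = 1 := by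
  unfold sphR0
  have h : ∀ u : ℝ, ((1 - Real.cos u * Real.sqrt ((1 : ℝ) ^ 2 - 1) : ℝ) : ℂ) ^ (-s - 1 / 2)
      = 1 := by
    intro u
    simp
  simp_rw [h]
  rw [intervalIntegral.integral_const]
  have hpi : (Real.pi : ℂ) ≠ 0 := by exact_mod_cast Real.pi_ne_zero
  simp only [sub_zero, Complex.real_smul, mul_one]
  push_cast
  field_simp

theorem sphR1_one830 (s : ℂ) : sphR1 s 1 = 1 := by
  unfold sphR1
  have h : ∀ u : ℝ,
      ((Real.sqrt (((1 : ℝ) + 1) / 2) - Real.cos u * Real.sqrt (((1 : ℝ) - 1) / 2) : ℝ) : ℂ) *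
        ((1 - Real.cos u * Real.sqrt ((1 : ℝ) ^ 2 - 1) : ℝ) : ℂ) ^ (-s - 1) = 1 := by
    intro u
    simp
  simp_rw [h]
  rw [intervalIntegral.integral_const]
  have hpi : (Real.pi : ℂ) ≠ 0 := by exact_mod_cast Real.pi_ne_zero
  simp only [sub_zero, Complex.real_smul, mul_one]
  push_cast
  field_simp

theorem sphRad_one830 (n : ℤ) (s : ℂ) : sphRad n s 1 = 1 := by
  unfold sphRad
  split_ifs
  · exact sphR0_one830 s
  · exact sphR1_one830 s

theorem sphC_one830 (ν : ℂ) : sphC ν 1 = 1 := by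
  unfold sphC
  have h : ∀ x : ℝ, ((1 + x * Real.sqrt ((1 : ℝ) ^ 2 - 1) : ℝ) : ℂ) ^ (-1 - ν) = 1 := by
    intro x
    simp
  simp_rw [h]
  rw [intervalIntegral.integral_const]
  simp only [Complex.real_smul, mul_one]
  push_cast
  norm_num

/-! ## The real place -/

/-- The eigenvalue function of parameter `s` and weight `n`. -/
def mSphR830 (n : ℤ) (s : ℂ) : ℝ → ℂ := fun t => sphRad n s (Real.cosh t)

theorem mT_sph830 (n : ℤ) (s : ℂ) (t : ℝ) :
    R.H96.mT96 (mSphR830 n s) t = sphRad n s (Real.cosh t) := by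
  unfold R.H96.mT96
  split_ifs with h
  · rw [h, Real.cosh_zero, sphRad_one830]
  · rfl

theorem sphFn_cartan830 (n : ℤ) (s : ℂ) (α β ζ t : ℝ) :
    sphFn n s (rotR α * bR ζ t 0 * rotR β)
      = wtChar n (rotR α) * wtChar n (rotR β) * R.H96.mT96 (mSphR830 n s) t := by
  unfold sphFn
  rw [wtPhase_cartan162, rhoR_cartan162, mT_sph830, wtChar_rotR_h131, wtChar_rotR_h131,
    ← Complex.exp_add]
  congr 2
  ring

/-- The function of helper96 is the spherical function. -/
theorem phiR_eq_sphFn830 (n : ℤ) (s : ℂ) (h : GL (Fin 2) ℝ)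
    (hd : 0 < (h : Matrix (Fin 2) (Fin 2) ℝ).det) :
    R.H96.phiR96 n (mSphR830 n s) h = sphFn n s h := by
  have hspec := (cartanRC_h543 h hd).choose_spec.choose_spec.choose_spec.choose_spec
  have key := sphFn_cartan830 n s (cartanRC_h543 h hd).choose_spec.choose
    (cartanRC_h543 h hd).choose_spec.choose_spec.choose (cartanRC_h543 h hd).choose
    (cartanRC_h543 h hd).choose_spec.choose_spec.choose_spec.choose
  rw [← hspec.2] at key
  rw [key, R.H96.phiR96, dif_pos hd]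

section RealCore

local instance borelGLR830 : MeasurableSpace (GL (Fin 2) ℝ) := borel (GL (Fin 2) ℝ)

/-- **THE SCALAR AT THE REAL PLACE is the spherical transform.** -/
theorem actsOnR_sph830 (μ : Measure (GL (Fin 2) ℝ)) [μ.IsHaarMeasure] (n : ℤ)
    (F : GL (Fin 2) ℝ → ℂ) (hF : IsArchTestR n F) (s : ℂ) :
    ActsOnR μ F (locClassR n (mSphR830 n s)) (sphTransR μ n F s) := by
  have h := R.H96.actsOnR96 μ n F hF (mSphR830 n s)
  have e : (∫ h in tsupport F, R.H96.phiR96 n (mSphR830 n s) h * F h ∂μ)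
      = sphTransR μ n F s := by
    rw [setIntegral_eq_integral_of_forall_compl_eq_zero
      (fun h hh => by rw [image_eq_zero_of_notMem_tsupport hh, mul_zero])]
    unfold sphTransR
    refine integral_congr_ae (Filter.Eventually.of_forall fun y => ?_)
    show R.H96.phiR96 n (mSphR830 n s) y * F y = F y * sphFn n s y
    by_cases hy : F y = 0
    · rw [hy, mul_zero, zero_mul]
    · rw [phiR_eq_sphFn830 n s y (hF.pos y hy), mul_comm]
  rw [e] at h
  exact h

end RealCore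

/-! ## The complex place -/

/-- The eigenvalue function of parameter `ν` at a complex place. -/
def mSphC830 (ν : ℂ) : ℝ → ℂ := fun d => ((4 * Real.pi : ℝ) : ℂ) * sphC ν (Real.cosh d)

theorem chD_eq_rhoC830 (y : GL (Fin 2) ℂ) :
    H614.chD614 (y : Matrix (Fin 2) (Fin 2) ℂ) = rhoC y := by
  unfold H614.chD614 rhoC
  congr 1
  have h1 := H614.hsq614_eq_trace (y : Matrix (Fin 2) (Fin 2) ℂ)
  rw [Matrix.trace_mul_comm] at h1
  rw [← h1, Complex.ofReal_re]

theorem one_le_rhoC830 (y : GL (Fin 2) ℂ) : 1 ≤ rhoC y := by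
  rw [← chD_eq_rhoC830]
  exact H614.one_le_chD614 _ (by
    have := y.isUnit
    exact (Matrix.isUnit_iff_isUnit_det _).1 (Units.isUnit y) |>.ne_zero)

theorem phiM_sph830 (ν : ℂ) (X : ℝ) (hX : 1 ≤ X) :
    M.H96.phiM96 (mSphC830 ν) X = sphC ν X := by
  unfold M.H96.phiM96
  split_ifs with h
  · have : X = 1 := le_antisymm h hX
    rw [this, sphC_one830]
  · unfold mSphC830
    rw [Real.cosh_arcosh hX]
    have hpi : ((4 * Real.pi : ℝ) : ℂ) ≠ 0 := by
      exact_mod_cast (by positivity : (4 * Real.pi : ℝ) ≠ 0)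
    field_simp

section CplxCore

local instance borelGLC830 : MeasurableSpace (GL (Fin 2) ℂ) := borel (GL (Fin 2) ℂ)

/-- **THE SCALAR AT THE COMPLEX PLACE is the spherical transform.** -/
theorem actsByMean_sph830 (μ' : Measure (GL (Fin 2) ℂ)) [μ'.IsHaarMeasure]
    (φ : GL (Fin 2) ℂ → ℂ) (hφ : IsCplxTest φ) (ν : ℂ) :
    ActsByMean μ' φ (mSphC830 ν) (sphTransC μ' φ ν) := by
  have h := M.H96.actsByMean96 μ' φ hφ (mSphC830 ν)
  have e : (∫ h in tsupport φ,
        M.H96.phiM96 (mSphC830 ν) (H614.chD614 (h : Matrix (Fin 2) (Fin 2) ℂ)) * φ h ∂μ')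
      = sphTransC μ' φ ν := by
    rw [setIntegral_eq_integral_of_forall_compl_eq_zero
      (fun h hh => by rw [image_eq_zero_of_notMem_tsupport hh, mul_zero])]
    unfold sphTransC
    refine integral_congr_ae (Filter.Eventually.of_forall fun y => ?_)
    show M.H96.phiM96 (mSphC830 ν) (H614.chD614 (y : Matrix (Fin 2) (Fin 2) ℂ)) * φ y
      = φ y * sphC ν (rhoC y)
    rw [chD_eq_rhoC830, phiM_sph830 ν _ (one_le_rhoC830 y), mul_comm]
  rw [e] at h
  exact h

end CplxCore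

/-! ## The base change of the scalars -/

/-- A test function of T6 on `GL₂(ℂ)` is a test function of T3. -/
theorem isCplxTest_of830 {φ : GL (Fin 2) ℂ → ℂ} (hφ : IsArchTestC φ) : IsCplxTest φ := by
  refine ⟨hφ.cont, hφ.supp, fun k k' g hk hk' => ?_⟩
  rw [hφ.right k' (k * g) hk', hφ.left k g hk]

section BC

local instance borelGLR830b : MeasurableSpace (GL (Fin 2) ℝ) := borel (GL (Fin 2) ℝ)

local instance borelGLC830b : MeasurableSpace (GL (Fin 2) ℂ) := borel (GL (Fin 2) ℂ)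

/-- **THE BASE CHANGE OF THE SCALARS AT THE REAL PLACE.**  See the header. -/
theorem scalarBC830 (μ : Measure (GL (Fin 2) ℝ)) (μ' : Measure (GL (Fin 2) ℂ))
    [hμ : μ.IsHaarMeasure] [hμ' : μ'.IsHaarMeasure] :
    ∃ c : ℝ, 0 < c ∧ ∀ n : ℤ, n = 1 ∨ n = -1 →
      ∃ c₀ c₁ : ℂ, c₀ ≠ 0 ∧ c₁ ≠ 0 ∧
        ∀ (φ : GL (Fin 2) ℂ → ℂ) (f₀ f₁ : GL (Fin 2) ℝ → ℂ) (β' : ℝ × ℝ → ℂ),
          IsArchTestC φ → IsArchTestR 0 f₀ → IsArchTestR n f₁ → HasAbelN φ β' →
          R.HasAbelNR f₀ (half830 (c : ℂ) β') → R.HasAbelNR f₁ (half830 (c : ℂ) β') →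
            IsArchMatch μ μ' φ (fun g => f₀ g + f₁ g) ∧
            ∀ s : ℂ, ∃ C : ℂ, ActsByMean μ' φ (mSphC830 (2 * s)) C ∧
              ActsOnR μ f₀ (locClassR 0 (mSphR830 0 s)) (c₀ * C) ∧
              ActsOnR μ f₁ (locClassR n (mSphR830 n s)) (c₁ * C) := by
  obtain ⟨c, hc, hw⟩ := archWire830 μ μ' hμ hμ'
  refine ⟨c, hc, fun n hn => ?_⟩
  obtain ⟨c₀, c₁, h0, h1, hall⟩ := hw n hn
  refine ⟨c₀, c₁, h0, h1, fun φ f₀ f₁ β' hφ hf₀ hf₁ hN hN0 hN1 => ?_⟩
  obtain ⟨hm, hs0, hs1⟩ := hall φ f₀ f₁ β' hφ hf₀ hf₁ hN hN0 hN1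
  refine ⟨hm, fun s => ⟨sphTransC μ' φ (2 * s), ?_, ?_, ?_⟩⟩
  · exact actsByMean_sph830 μ' φ (isCplxTest_of830 hφ) (2 * s)
  · rw [← hs0 s]
    exact actsOnR_sph830 μ 0 f₀ hf₀ s
  · rw [← hs1 s]
    exact actsOnR_sph830 μ n f₁ hf₁ s

end BC

end Fermat.Agent.LT.T3.H830

end
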